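/-
Row 37 (S43), block FREE.  helper56.  THE ABSTRACT STEP AT EXPONENT `p ^ k` (finite abelian groups, no field).

`Free.free_ops` is the linear algebra over a field (`n = p`).  `Glue.Pkg` / `T2.Data` need the same statements on the
`m`-parts of `W_H(n)`, `W_0(n)` for `n = p ^ (e + 1)`.  Here: `V = W1 F1 n`, `V0 = W1 F0 n` finite groups killed by `p ^ k`,
`t i`, `t0 i` commuting families (Hecke operators and one generator `δ = t iδ` of the diamond group, of order dividing
`p ^ a * h`, `p ∤ h`), `ev i : ℤ` the eigenvalues, `up = π^*`, `dn = π_*`, one operator `t i0` (`= T_l`) with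
`p ∤ ev i0 - c` (`c = l + 1`) and the three outputs (KERUP), (INV), (COKER) of the geometric leaves of FREE.

`W  := gen t ev  = {x | ∀ i, ∃ N, (t i - ev i) ^ N x = 0}`, `W0 := gen t0 ev`.  RESULTS (`Cover.*`):
* `exists_proj`      : natural projectors `e`, `e0` onto `W`, `W0` (compatible with `up`, `dn`, and with every pair of
                       operators commuting with the families);
* `δ_pow_apply`      : `δ ^ (p ^ a) = 1` on `W`;
* `up_dn_apply`      : `up (dn x) = h • ∑_{j < p ^ a} δ ^ j x` on `W`;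
* `dn_surj`          : `dn W = W0`;
* `up_inj`           : `up` is injective on `W0`;
* `exists_up_of_fixed` : `x ∈ W`, `δ x = x` ⟹ `x ∈ up W0`;
* `ker_dn`           : `x ∈ W`, `dn x = 0` ⟹ `x ∈ (δ - 1) W`   (counting).
Mathlib only.
-/
import Mathlib

set_option autoImplicit false

namespace Fermat.Agent.S43.Free.Fin

/-! ### Generalities -/

section Gen

theorem exists_idem_pow {M : Type*} [Monoid M] [Finite M] (x : M) :
    ∃ m : ℕ, 0 < m ∧ x ^ m * x ^ m = x ^ m := by
  obtain ⟨a, b, hab, h⟩ : ∃ a b : ℕ, a < b ∧ x ^ a = x ^ b := by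
    obtain ⟨a, b, hne, h⟩ := Finite.exists_ne_map_eq_of_infinite (fun n : ℕ => x ^ n)
    rcases lt_or_gt_of_ne hne with h1 | h1
    · exact ⟨a, b, h1, h⟩
    · exact ⟨b, a, h1, h.symm⟩
  obtain ⟨d, rfl⟩ : ∃ d, b = a + d := ⟨b - a, by omega⟩
  have hd : 0 < d := by omega
  have per : ∀ n, a ≤ n → x ^ (n + d) = x ^ n := by
    intro n hn
    obtain ⟨c, rfl⟩ := Nat.exists_eq_add_of_le hn
    rw [show a + c + d = (a + d) + c by ring, pow_add, ← h, ← pow_add]
  have per' : ∀ k n, a ≤ n → x ^ (n + k * d) = x ^ n := by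
    intro k
    induction k with
    | zero => intro n _; simp
    | succ k ih =>
      intro n hn
      rw [show n + (k + 1) * d = (n + k * d) + d by ring, per _ (by omega), ih n hn]
  refine ⟨(a + 1) * d, by positivity, ?_⟩
  rw [← pow_add]
  exact per' (a + 1) _ (le_trans (Nat.le_succ a) (Nat.le_mul_of_pos_right _ hd))

theorem exists_idem_pow₂ {M M' : Type*} [Monoid M] [Monoid M'] [Finite M] [Finite M'] (x : M)
    (y : M') : ∃ m : ℕ, 0 < m ∧ x ^ m * x ^ m = x ^ m ∧ y ^ m * y ^ m = y ^ m := by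
  obtain ⟨m, hm, h⟩ := exists_idem_pow ((x, y) : M × M')
  refine ⟨m, hm, ?_, ?_⟩
  · exact congrArg Prod.fst h
  · exact congrArg Prod.snd h

theorem list_mul_prod_eq_zero {R : Type*} [Ring R] (l : List R)
    (hc : ∀ a ∈ l, ∀ b ∈ l, Commute a b) (hi : ∀ a ∈ l, a * a = a) :
    ∀ a ∈ l, a * (l.map (fun b => 1 - b)).prod = 0 := by
  induction l with
  | nil => intro a ha; simp at ha
  | cons b l ih =>
    intro a ha
    rw [List.map_cons, List.prod_cons]
    rcases List.mem_cons.mp ha with rfl | ha'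
    · rw [← mul_assoc, mul_sub, mul_one, hi a ha, sub_self, zero_mul]
    · have h1 : Commute a (1 - b) :=
        (Commute.one_right a).sub_right (hc a ha b (List.mem_cons_self))
      rw [← mul_assoc, h1.eq, mul_assoc,
        ih (fun x hx y hy => hc x (List.mem_cons_of_mem _ hx) y (List.mem_cons_of_mem _ hy))
          (fun x hx => hi x (List.mem_cons_of_mem _ hx)) a ha', mul_zero]

variable {V V0 : Type*} [AddCommGroup V] [AddCommGroup V0]

theorem mul_app (f g : AddMonoid.End V) (x : V) : (f * g) x = f (g x) := rfl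

theorem one_app (x : V) : (1 : AddMonoid.End V) x = x := rfl

theorem sub_app (f g : AddMonoid.End V) (x : V) : (f - g) x = f x - g x := rfl

theorem int_app (z : ℤ) (x : V) : (z : AddMonoid.End V) x = z • x := rfl

theorem pow_succ_app (f : AddMonoid.End V) (N : ℕ) (x : V) : (f ^ (N + 1)) x = (f ^ N) (f x) := by
  rw [pow_succ, mul_app]

theorem pow_succ_app' (f : AddMonoid.End V) (N : ℕ) (x : V) : (f ^ (N + 1)) x = f ((f ^ N) x) := by
  rw [pow_succ', mul_app]

theorem pow_app_eq_zero_of_le {f : AddMonoid.End V} {N N' : ℕ} {x : V} (h : (f ^ N) x = 0)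
    (hN : N ≤ N') : (f ^ N') x = 0 := by
  obtain ⟨c, rfl⟩ := Nat.exists_eq_add_of_le hN
  rw [add_comm, pow_add, mul_app, h, map_zero]

theorem intertwine_pow {f : V →+ V0} {s : AddMonoid.End V} {s0 : AddMonoid.End V0}
    (h : ∀ x, f (s x) = s0 (f x)) (N : ℕ) (x : V) : f ((s ^ N) x) = (s0 ^ N) (f x) := by
  induction N generalizing x with
  | zero => rfl
  | succ N ih => rw [pow_succ_app, ih, h, ← pow_succ_app]

theorem eq_zero_of_zsmul {p k : ℕ} (hp : p.Prime) (hV : ∀ x : V, p ^ k • x = 0) {u : ℤ}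
    (hu : ¬ (p : ℤ) ∣ u) {x : V} (h : u • x = 0) : x = 0 := by
  have h1 : IsCoprime ((p : ℤ) ^ k) u :=
    ((Nat.prime_iff_prime_int.mp hp).coprime_iff_not_dvd.2 hu).pow_left
  obtain ⟨a, b, hab⟩ := h1
  have h2 : ((p : ℤ) ^ k) • x = 0 := by
    rw [← Nat.cast_pow, natCast_zsmul]; exact hV x
  calc x = (1 : ℤ) • x := (one_zsmul x).symm
    _ = (a * (p : ℤ) ^ k + b * u) • x := by rw [hab]
    _ = 0 := by rw [add_zsmul, mul_zsmul, mul_zsmul, h2, h, zsmul_zero, zsmul_zero, add_zero]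

theorem eq_zero_of_nsmul {p k : ℕ} (hp : p.Prime) (hV : ∀ x : V, p ^ k • x = 0) {u : ℕ}
    (hu : ¬ p ∣ u) {x : V} (h : u • x = 0) : x = 0 :=
  eq_zero_of_zsmul hp hV (u := (u : ℤ)) (fun hd => hu (Int.natCast_dvd_natCast.mp hd))
    (by rw [natCast_zsmul]; exact h)

theorem exists_preimage [Finite V] (G : AddSubgroup V) (r : AddMonoid.End V)
    (hr : ∀ x ∈ G, r x ∈ G) (hinj : ∀ x ∈ G, r x = 0 → x = 0) : ∀ x ∈ G, ∃ z ∈ G, r z = x := by
  let f : G → G := fun x => ⟨r x, hr x x.2⟩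
  have hf : Function.Injective f := by
    intro x y hxy
    have h1 : r (x : V) = r (y : V) := congrArg Subtype.val hxy
    have h2 : ((x : V) - y) = 0 :=
      hinj _ (G.sub_mem x.2 y.2) (by rw [map_sub, h1, sub_self])
    exact Subtype.ext (sub_eq_zero.mp h2)
  intro x hx
  obtain ⟨z, hz⟩ := Finite.surjective_of_injective hf ⟨x, hx⟩
  exact ⟨z, z.2, congrArg Subtype.val hz⟩

/-- The generalised eigen-subgroup of a family of endomorphisms. -/
def gen {ι : Type*} (t : ι → AddMonoid.End V) (ev : ι → ℤ) : AddSubgroup V where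
  carrier := {x | ∀ i, ∃ N : ℕ, ((t i - (ev i : AddMonoid.End V)) ^ N) x = 0}
  zero_mem' := fun _ => ⟨0, map_zero _⟩
  add_mem' := by
    intro x y hx hy i
    obtain ⟨N, hN⟩ := hx i
    obtain ⟨N', hN'⟩ := hy i
    exact ⟨N + N', by
      rw [map_add, pow_app_eq_zero_of_le hN (Nat.le_add_right _ _),
        pow_app_eq_zero_of_le hN' (Nat.le_add_left _ _), add_zero]⟩
  neg_mem' := by
    intro x hx i
    obtain ⟨N, hN⟩ := hx i
    exact ⟨N, by rw [map_neg, hN, neg_zero]⟩

theorem mem_gen {ι : Type*} {t : ι → AddMonoid.End V} {ev : ι → ℤ} {x : V} :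
    x ∈ gen t ev ↔ ∀ i, ∃ N : ℕ, ((t i - (ev i : AddMonoid.End V)) ^ N) x = 0 := Iff.rfl

/-- the iterate form of the membership condition -/
theorem mem_gen_iff_iterate {ι : Type*} {t : ι → AddMonoid.End V} {ev : ι → ℤ} {x : V} :
    x ∈ gen t ev ↔ ∀ i, ∃ N : ℕ, (fun y : V => t i y - ev i • y)^[N] x = 0 := by
  have key : ∀ (i : ι) (N : ℕ) (y : V),
      ((t i - (ev i : AddMonoid.End V)) ^ N) y = (fun y : V => t i y - ev i • y)^[N] y := by
    intro i N
    induction N with
    | zero => intro y; rfl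
    | succ N ih => intro y; rw [pow_succ_app, ih, Function.iterate_succ_apply]; rfl
  simp only [mem_gen, key]

theorem map_mem_gen {ι : Type*} {t : ι → AddMonoid.End V} {t0 : ι → AddMonoid.End V0} {ev : ι → ℤ}
    (f : V →+ V0) (hf : ∀ i x, f (t i x) = t0 i (f x)) {x : V} (hx : x ∈ gen t ev) :
    f x ∈ gen t0 ev := by
  intro i
  obtain ⟨N, hN⟩ := hx i
  refine ⟨N, ?_⟩
  rw [← intertwine_pow (f := f) (s := t i - (ev i : AddMonoid.End V)) _ N x, hN, map_zero]
  intro y
  rw [sub_app, sub_app, int_app, int_app, map_sub, map_zsmul, hf]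

end Gen

/-! ### The cover -/

/-- The data (see the header). -/
structure Cover (p k a h : ℕ) (ι : Type*) (V V0 : Type*) [AddCommGroup V] [AddCommGroup V0] where
  hp : p.Prime
  hV : ∀ x : V, p ^ k • x = 0
  hV0 : ∀ y : V0, p ^ k • y = 0
  hh : ¬ p ∣ h
  t : ι → AddMonoid.End V
  t0 : ι → AddMonoid.End V0
  ev : ι → ℤ
  comm : ∀ i j, Commute (t i) (t j)
  comm0 : ∀ i j, Commute (t0 i) (t0 j)
  up : V0 →+ V
  dn : V →+ V0
  up_t : ∀ i y, up (t0 i y) = t i (up y)
  dn_t : ∀ i x, dn (t i x) = t0 i (dn x)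
  iδ : ι
  δ0 : ∀ y, t0 iδ y = y
  evδ : ev iδ = 1
  δpow : ∀ x, (t iδ ^ (p ^ a * h)) x = x
  up_dn : ∀ x, up (dn x) = ∑ j ∈ Finset.range (p ^ a * h), (t iδ ^ j) x
  i0 : ι
  c : ℤ
  hc : ¬ (p : ℤ) ∣ ev i0 - c
  kerup : ∀ y, up y = 0 → t0 i0 y = c • y
  inv : ∀ x, t iδ x = x → ∃ y, up y = t i0 x - c • x
  coker : ∀ y, ∃ x, dn x = t0 i0 y - c • y

namespace Cover

variable {p k a h : ℕ} {ι : Type*} {V V0 : Type*} [AddCommGroup V] [AddCommGroup V0]
  (C : Cover p k a h ι V V0)

/-- the `m`-part upstairs -/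
def W : AddSubgroup V := gen C.t C.ev

/-- the `m`-part downstairs -/
def W0 : AddSubgroup V0 := gen C.t0 C.ev

/-- the generator of the diamond group -/
def δ : AddMonoid.End V := C.t C.iδ

/-- `t i - ev i` -/
def s (i : ι) : AddMonoid.End V := C.t i - (C.ev i : AddMonoid.End V)

/-- `t0 i - ev i` -/
def s0 (i : ι) : AddMonoid.End V0 := C.t0 i - (C.ev i : AddMonoid.End V0)

theorem commute_s {g : AddMonoid.End V} (hg : ∀ i, Commute g (C.t i)) (i : ι) :
    Commute g (C.s i) := (hg i).sub_right (Int.commute_cast g _)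

theorem commute_s0 {g : AddMonoid.End V0} (hg : ∀ i, Commute g (C.t0 i)) (i : ι) :
    Commute g (C.s0 i) := (hg i).sub_right (Int.commute_cast g _)

theorem s_comm (i j : ι) : Commute (C.s i) (C.s j) :=
  (C.commute_s (fun j => C.comm i j) j).sub_left (Int.cast_commute _ _)

theorem s0_comm (i j : ι) : Commute (C.s0 i) (C.s0 j) :=
  (C.commute_s0 (fun j => C.comm0 i j) j).sub_left (Int.cast_commute _ _)

theorem dn_s (i : ι) (x : V) : C.dn (C.s i x) = C.s0 i (C.dn x) := by
  rw [s, s0, sub_app, sub_app, int_app, int_app, map_sub, map_zsmul, C.dn_t]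

theorem up_s (i : ι) (y : V0) : C.up (C.s0 i y) = C.s i (C.up y) := by
  rw [s, s0, sub_app, sub_app, int_app, int_app, map_sub, map_zsmul, C.up_t]

theorem dn_mem {x : V} (hx : x ∈ C.W) : C.dn x ∈ C.W0 := map_mem_gen C.dn C.dn_t hx

theorem up_mem {y : V0} (hy : y ∈ C.W0) : C.up y ∈ C.W := map_mem_gen C.up C.up_t hy

/-- every operator commuting with the family preserves `W`. -/
theorem mem_W_of_commute {g : AddMonoid.End V} (hg : ∀ i, Commute g (C.t i)) {x : V}
    (hx : x ∈ C.W) : g x ∈ C.W :=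
  map_mem_gen (t0 := C.t) g (fun i y => congrArg (fun f : AddMonoid.End V => f y) (hg i).eq) hx

theorem mem_W0_of_commute {g : AddMonoid.End V0} (hg : ∀ i, Commute g (C.t0 i)) {y : V0}
    (hy : y ∈ C.W0) : g y ∈ C.W0 :=
  map_mem_gen (t0 := C.t0) g (fun i z => congrArg (fun f : AddMonoid.End V0 => f z) (hg i).eq) hy

theorem δ_mem {x : V} (hx : x ∈ C.W) : C.δ x ∈ C.W := C.mem_W_of_commute (fun i => C.comm _ i) hx

theorem δ_pow_mem {x : V} (hx : x ∈ C.W) (j : ℕ) : (C.δ ^ j) x ∈ C.W :=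
  C.mem_W_of_commute (fun i => (C.comm _ i).pow_left j) hx

theorem dn_δ (x : V) : C.dn (C.δ x) = C.dn x := by rw [δ, C.dn_t, C.δ0]

theorem δ_up (y : V0) : C.δ (C.up y) = C.up y := by rw [δ, ← C.up_t, C.δ0]

/-! #### The projectors -/

/-- **The natural projectors** onto `W` and `W0`. -/
theorem exists_proj [Finite V] [Finite V0] :
    ∃ (e : AddMonoid.End V) (e0 : AddMonoid.End V0),
      (∀ x, e x ∈ C.W) ∧ (∀ x ∈ C.W, e x = x) ∧ (∀ y, e0 y ∈ C.W0) ∧ (∀ y ∈ C.W0, e0 y = y) ∧
      (∀ x, C.dn (e x) = e0 (C.dn x)) ∧ (∀ y, C.up (e0 y) = e (C.up y)) ∧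
      (∀ g : AddMonoid.End V, (∀ i, Commute g (C.t i)) → Commute g e) ∧
      (∀ g : AddMonoid.End V0, (∀ i, Commute g (C.t0 i)) → Commute g e0) := by
  classical
  have : Finite (AddMonoid.End V) := DFunLike.finite (AddMonoid.End V)
  have : Finite (AddMonoid.End V0) := DFunLike.finite (AddMonoid.End V0)
  choose m hm hm1 hm0 using fun i => exists_idem_pow₂ (C.s i) (C.s0 i)
  set ε : ι → AddMonoid.End V := fun i => C.s i ^ m i with hε
  set ε0 : ι → AddMonoid.End V0 := fun i => C.s0 i ^ m i with hε0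
  -- membership in terms of the idempotents
  have memW : ∀ x, x ∈ C.W ↔ ∀ i, ε i x = 0 := by
    intro x
    constructor
    · intro hx i
      obtain ⟨N, hN⟩ := hx i
      have h1 : ε i = ε i ^ (N + 1) := ((show IsIdempotentElem (ε i) from hm1 i).pow_succ_eq N).symm
      rw [h1, hε, ← pow_mul]
      exact pow_app_eq_zero_of_le hN (by nlinarith [hm i])
    · intro hx i
      exact ⟨m i, hx i⟩
  have memW0 : ∀ y, y ∈ C.W0 ↔ ∀ i, ε0 i y = 0 := by
    intro y
    constructor
    · intro hy i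
      obtain ⟨N, hN⟩ := hy i
      have h1 : ε0 i = ε0 i ^ (N + 1) :=
        ((show IsIdempotentElem (ε0 i) from hm0 i).pow_succ_eq N).symm
      rw [h1, hε0, ← pow_mul]
      exact pow_app_eq_zero_of_le hN (by nlinarith [hm i])
    · intro hy i
      exact ⟨m i, hy i⟩
  -- a finite list of indices
  obtain ⟨L, hL⟩ : ∃ L : List ι, ∀ i, ∃ j ∈ L, ε j = ε i ∧ ε0 j = ε0 i := by
    let f : ι → AddMonoid.End V × AddMonoid.End V0 := fun i => (ε i, ε0 i)
    have : Fintype (Set.range f) := Fintype.ofFinite _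
    let g : Set.range f → ι := fun y => y.2.choose
    have hg : ∀ y : Set.range f, f (g y) = y := fun y => y.2.choose_spec
    refine ⟨(Finset.univ.image g).toList, fun i => ⟨g ⟨f i, i, rfl⟩, ?_, ?_, ?_⟩⟩
    · rw [Finset.mem_toList]
      exact Finset.mem_image_of_mem _ (Finset.mem_univ _)
    · exact congrArg Prod.fst (hg ⟨f i, i, rfl⟩)
    · exact congrArg Prod.snd (hg ⟨f i, i, rfl⟩)
  have εc : ∀ i j, Commute (ε i) (ε j) := fun i j => (C.s_comm i j).pow_pow _ _
  have ε0c : ∀ i j, Commute (ε0 i) (ε0 j) := fun i j => (C.s0_comm i j).pow_pow _ _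
  set e : AddMonoid.End V := ((L.map ε).map (fun b => 1 - b)).prod with he
  set e0 : AddMonoid.End V0 := ((L.map ε0).map (fun b => 1 - b)).prod with he0
  have kill : ∀ i, ε i * e = 0 := by
    intro i
    obtain ⟨j, hj, hj1, -⟩ := hL i
    rw [← hj1]
    refine list_mul_prod_eq_zero (L.map ε) ?_ ?_ _ (List.mem_map_of_mem hj)
    · intro a ha b hb
      obtain ⟨i1, -, rfl⟩ := List.mem_map.mp ha
      obtain ⟨i2, -, rfl⟩ := List.mem_map.mp hb
      exact εc i1 i2
    · intro a ha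
      obtain ⟨i1, -, rfl⟩ := List.mem_map.mp ha
      exact hm1 i1
  have kill0 : ∀ i, ε0 i * e0 = 0 := by
    intro i
    obtain ⟨j, hj, -, hj1⟩ := hL i
    rw [← hj1]
    refine list_mul_prod_eq_zero (L.map ε0) ?_ ?_ _ (List.mem_map_of_mem hj)
    · intro a ha b hb
      obtain ⟨i1, -, rfl⟩ := List.mem_map.mp ha
      obtain ⟨i2, -, rfl⟩ := List.mem_map.mp hb
      exact ε0c i1 i2
    · intro a ha
      obtain ⟨i1, -, rfl⟩ := List.mem_map.mp ha
      exact hm0 i1
  -- statements by induction on an arbitrary list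
  have fixL : ∀ (l : List ι) (x : V), (∀ i, ε i x = 0) →
      (((l.map ε).map (fun b => 1 - b)).prod : AddMonoid.End V) x = x := by
    intro l x hx
    induction l with
    | nil => rfl
    | cons j l ih =>
      rw [List.map_cons, List.map_cons, List.prod_cons, mul_app, ih, sub_app, one_app, hx,
        sub_zero]
  have fixL0 : ∀ (l : List ι) (y : V0), (∀ i, ε0 i y = 0) →
      (((l.map ε0).map (fun b => 1 - b)).prod : AddMonoid.End V0) y = y := by
    intro l y hy
    induction l with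
    | nil => rfl
    | cons j l ih =>
      rw [List.map_cons, List.map_cons, List.prod_cons, mul_app, ih, sub_app, one_app, hy,
        sub_zero]
  have dnL : ∀ (l : List ι) (x : V), C.dn ((((l.map ε).map (fun b => 1 - b)).prod : AddMonoid.End V) x) =
      (((l.map ε0).map (fun b => 1 - b)).prod : AddMonoid.End V0) (C.dn x) := by
    intro l x
    induction l with
    | nil => rfl
    | cons j l ih =>
      rw [List.map_cons, List.map_cons, List.prod_cons, mul_app, sub_app, one_app, map_sub, ih,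
        List.map_cons, List.map_cons, List.prod_cons, mul_app, sub_app, one_app, hε, hε0]
      simp only
      rw [intertwine_pow (C.dn_s j), ih]
  have upL : ∀ (l : List ι) (y : V0), C.up ((((l.map ε0).map (fun b => 1 - b)).prod : AddMonoid.End V0) y) =
      (((l.map ε).map (fun b => 1 - b)).prod : AddMonoid.End V) (C.up y) := by
    intro l y
    induction l with
    | nil => rfl
    | cons j l ih =>
      rw [List.map_cons, List.map_cons, List.prod_cons, mul_app, sub_app, one_app, map_sub, ih,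
        List.map_cons, List.map_cons, List.prod_cons, mul_app, sub_app, one_app, hε, hε0]
      simp only
      rw [intertwine_pow (C.up_s j), ih]
  refine ⟨e, e0, ?_, ?_, ?_, ?_, dnL L, upL L, ?_, ?_⟩
  · intro x
    rw [memW]
    intro i
    rw [← mul_app, kill]; rfl
  · intro x hx
    exact fixL L x ((memW x).mp hx)
  · intro y
    rw [memW0]
    intro i
    rw [← mul_app, kill0]; rfl
  · intro y hy
    exact fixL0 L y ((memW0 y).mp hy)
  · intro g hg
    refine Commute.list_prod_right _ _ ?_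
    intro b hb
    obtain ⟨b', hb', rfl⟩ := List.mem_map.mp hb
    obtain ⟨i, -, rfl⟩ := List.mem_map.mp hb'
    exact (Commute.one_right g).sub_right ((C.commute_s hg i).pow_right _)
  · intro g hg
    refine Commute.list_prod_right _ _ ?_
    intro b hb
    obtain ⟨b', hb', rfl⟩ := List.mem_map.mp hb
    obtain ⟨i, -, rfl⟩ := List.mem_map.mp hb'
    exact (Commute.one_right g).sub_right ((C.commute_s0 hg i).pow_right _)

/-! #### `t i0 - c` is bijective on the `m`-parts -/

omit C in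
theorem eq_zero_of_eigen {X : Type*} [AddCommGroup X] (hp : p.Prime) (hX : ∀ x : X, p ^ k • x = 0)
    {t : AddMonoid.End X} {ev c : ℤ} (hc : ¬ (p : ℤ) ∣ ev - c) {x : X}
    (hN : ∃ N : ℕ, ((t - (ev : AddMonoid.End X)) ^ N) x = 0) (h : t x = c • x) : x = 0 := by
  obtain ⟨N, hN⟩ := hN
  have h1 : (t - (ev : AddMonoid.End X)) x = (c - ev) • x := by
    rw [sub_app, int_app, h, sub_zsmul, sub_eq_add_neg]
  have key : ∀ N : ℕ, ((t - (ev : AddMonoid.End X)) ^ N) x = (c - ev) ^ N • x := by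
    intro N
    induction N with
    | zero => rw [pow_zero, pow_zero, one_zsmul]; rfl
    | succ N ih => rw [pow_succ_app', ih, map_zsmul, h1, ← mul_zsmul, ← pow_succ]
  rw [key] at hN
  refine eq_zero_of_zsmul hp hX (fun hd => hc ?_) hN
  have := (Nat.prime_iff_prime_int.mp hp).dvd_of_dvd_pow hd
  rw [← dvd_neg, neg_sub] at this
  exact this

/-- `t i0 - c` -/
def r : AddMonoid.End V := C.t C.i0 - (C.c : AddMonoid.End V)

/-- `t0 i0 - c` -/
def r0 : AddMonoid.End V0 := C.t0 C.i0 - (C.c : AddMonoid.End V0)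

theorem r_app (x : V) : C.r x = C.t C.i0 x - C.c • x := rfl

theorem r0_app (y : V0) : C.r0 y = C.t0 C.i0 y - C.c • y := rfl

theorem r_commute (i : ι) : Commute C.r (C.t i) :=
  (C.comm _ i).sub_left (Int.cast_commute _ _)

theorem r0_commute (i : ι) : Commute C.r0 (C.t0 i) :=
  (C.comm0 _ i).sub_left (Int.cast_commute _ _)

theorem r_inj {x : V} (hx : x ∈ C.W) (h : C.r x = 0) : x = 0 :=
  eq_zero_of_eigen C.hp C.hV C.hc (hx C.i0) (sub_eq_zero.mp h)

theorem r0_inj {y : V0} (hy : y ∈ C.W0) (h : C.r0 y = 0) : y = 0 :=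
  eq_zero_of_eigen C.hp C.hV0 C.hc (hy C.i0) (sub_eq_zero.mp h)

theorem r_surj [Finite V] {x : V} (hx : x ∈ C.W) : ∃ z ∈ C.W, C.r z = x :=
  exists_preimage C.W C.r (fun _ hz => C.mem_W_of_commute C.r_commute hz)
    (fun _ hz h => C.r_inj hz h) x hx

theorem r0_surj [Finite V0] {y : V0} (hy : y ∈ C.W0) : ∃ z ∈ C.W0, C.r0 z = y :=
  exists_preimage C.W0 C.r0 (fun _ hz => C.mem_W0_of_commute C.r0_commute hz)
    (fun _ hz h => C.r0_inj hz h) y hy

/-! #### The prime-to-`p` part of the diamond group acts trivially on `W` -/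

theorem δ_pow_apply {x : V} (hx : x ∈ C.W) : (C.δ ^ (p ^ a)) x = x := by
  set d : AddMonoid.End V := C.δ ^ (p ^ a) with hd
  have hdh : ∀ z, (d ^ h) z = z := by
    intro z
    rw [hd, ← pow_mul]
    exact C.δpow z
  -- `ker (d - 1)² = ker (d - 1)`
  have step : ∀ z, (d - 1) ((d - 1) z) = 0 → (d - 1) z = 0 := by
    intro z hz
    set w := (d - 1) z with hw
    have hdw : d w = w := by
      rw [sub_app, one_app] at hz
      exact sub_eq_zero.mp hz
    have hdz : d z = z + w := by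
      rw [hw, sub_app, one_app]; abel
    have hj : ∀ j : ℕ, (d ^ j) z = z + j • w := by
      intro j
      induction j with
      | zero => rw [pow_zero, zero_smul, add_zero]; rfl
      | succ j ih => rw [pow_succ_app', ih, map_add, map_nsmul, hdw, hdz, succ_nsmul]; abel
    have h1 : h • w = 0 := by
      have := hj h
      rw [hdh] at this
      exact (left_eq_add.mp this)
    exact eq_zero_of_nsmul C.hp C.hV C.hh h1
  have ind : ∀ (N : ℕ) (z : V), ((d - 1) ^ (N + 1)) z = 0 → (d - 1) z = 0 := by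
    intro N
    induction N with
    | zero => intro z hz; rwa [zero_add, pow_one] at hz
    | succ N ih =>
      intro z hz
      apply ih
      rw [pow_succ_app']
      apply step
      rw [← pow_succ_app', ← pow_succ_app']
      exact hz
  -- `d - 1` is nilpotent at `x`
  obtain ⟨N, hN⟩ := hx C.iδ
  rw [C.evδ, Int.cast_one] at hN
  have hG : d - 1 = (∑ i ∈ Finset.range (p ^ a), C.δ ^ i) * (C.δ - 1) := (geom_sum_mul _ _).symm
  have hcomm : Commute (∑ i ∈ Finset.range (p ^ a), C.δ ^ i) (C.δ - 1) :=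
    (Commute.sum_left _ _ _ fun i _ => (Commute.refl C.δ).pow_left i).sub_right
      (Commute.one_right _)
  have h2 : ((d - 1) ^ (N + 1)) x = 0 := by
    rw [hG, hcomm.mul_pow, mul_app]
    have : ((C.δ - 1) ^ (N + 1)) x = 0 := pow_app_eq_zero_of_le hN (Nat.le_succ N)
    rw [this, map_zero]
  have h3 := ind N x h2
  rw [sub_app, one_app] at h3
  exact sub_eq_zero.mp h3

omit C in
theorem sum_range_mul_apply {X : Type*} [AddCommGroup X] (f : AddMonoid.End X) (P : ℕ) {x : X}
    (hx : (f ^ P) x = x) (H : ℕ) :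
    ∑ j ∈ Finset.range (P * H), (f ^ j) x = H • ∑ j ∈ Finset.range P, (f ^ j) x := by
  have hfix : ∀ H : ℕ, (f ^ (P * H)) x = x := by
    intro H
    induction H with
    | zero => rfl
    | succ H ih => rw [Nat.mul_succ, pow_add, mul_app, hx, ih]
  induction H with
  | zero => simp
  | succ H ih =>
    rw [Nat.mul_succ, Finset.sum_range_add, ih, succ_nsmul]
    congr 1
    refine Finset.sum_congr rfl fun j _ => ?_
    rw [add_comm, pow_add, mul_app, hfix]

theorem up_dn_apply {x : V} (hx : x ∈ C.W) :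
    C.up (C.dn x) = h • ∑ j ∈ Finset.range (p ^ a), (C.δ ^ j) x := by
  rw [C.up_dn]
  exact sum_range_mul_apply C.δ (p ^ a) (C.δ_pow_apply hx) h

/-! #### The four statements -/

theorem dn_surj [Finite V] [Finite V0] {y : V0} (hy : y ∈ C.W0) : ∃ x ∈ C.W, C.dn x = y := by
  obtain ⟨e, e0, he, -, -, he0, hdn, -, -, -⟩ := C.exists_proj
  obtain ⟨y', hy', rfl⟩ := C.r0_surj hy
  obtain ⟨x, hx⟩ := C.coker y'
  exact ⟨e x, he x, by rw [hdn, hx, ← r0_app, he0 _ hy]⟩

theorem up_inj {y : V0} (hy : y ∈ C.W0) (h : C.up y = 0) : y = 0 :=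
  C.r0_inj hy (by rw [r0_app, C.kerup y h, sub_self])

theorem exists_up_of_fixed [Finite V] [Finite V0] {x : V} (hx : x ∈ C.W) (h : C.δ x = x) :
    ∃ y ∈ C.W0, C.up y = x := by
  obtain ⟨e, e0, -, he, he0, -, -, hup, -, -⟩ := C.exists_proj
  obtain ⟨z, hz, rfl⟩ := C.r_surj hx
  have hδz : C.δ z = z := by
    have h1 : C.r (C.δ z - z) = 0 := by
      have h2 : C.r (C.δ z) = C.δ (C.r z) :=
        congrArg (fun f : AddMonoid.End V => f z) (C.r_commute C.iδ).eq
      rw [map_sub, h2, h, sub_self]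
    exact sub_eq_zero.mp (C.r_inj (C.W.sub_mem (C.δ_mem hz) hz) h1)
  obtain ⟨y, hy⟩ := C.inv z hδz
  exact ⟨e0 y, he0 y, by rw [hup, hy, ← r_app, he _ hx]⟩

/-- `π_*` on the `m`-parts -/
def dnR : C.W →+ C.W0 := (C.dn.comp C.W.subtype).codRestrict C.W0 fun x => C.dn_mem x.2

/-- `π^*` on the `m`-parts -/
def upR : C.W0 →+ C.W := (C.up.comp C.W0.subtype).codRestrict C.W fun y => C.up_mem y.2

/-- the restriction to `W` of an operator commuting with the family -/
def res (g : AddMonoid.End V) (hg : ∀ i, Commute g (C.t i)) : AddMonoid.End C.W :=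
  ((g : V →+ V).comp C.W.subtype).codRestrict C.W fun x => C.mem_W_of_commute hg x.2

/-- the restriction to `W0` of an operator commuting with the family -/
def res0 (g : AddMonoid.End V0) (hg : ∀ i, Commute g (C.t0 i)) : AddMonoid.End C.W0 :=
  ((g : V0 →+ V0).comp C.W0.subtype).codRestrict C.W0 fun y => C.mem_W0_of_commute hg y.2

/-- `δ` on `W` -/
def δW : AddMonoid.End C.W := C.res C.δ fun i => C.comm _ i

@[simp] theorem coe_dnR (x : C.W) : (C.dnR x : V0) = C.dn x := rfl

@[simp] theorem coe_upR (y : C.W0) : (C.upR y : V) = C.up y := rfl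

@[simp] theorem coe_res (g : AddMonoid.End V) (hg : ∀ i, Commute g (C.t i)) (x : C.W) :
    (C.res g hg x : V) = g x := rfl

@[simp] theorem coe_res0 (g : AddMonoid.End V0) (hg : ∀ i, Commute g (C.t0 i)) (y : C.W0) :
    (C.res0 g hg y : V0) = g y := rfl

@[simp] theorem coe_δW (x : C.W) : (C.δW x : V) = C.δ x := rfl

theorem coe_δW_pow (j : ℕ) (x : C.W) : ((C.δW ^ j) x : V) = (C.δ ^ j) x :=
  intertwine_pow (f := C.W.subtype) (s := C.δW) (s0 := C.δ) (fun _ => rfl) j x

theorem dnR_surjective [Finite V] [Finite V0] : Function.Surjective C.dnR := by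
  intro y
  obtain ⟨x, hx, h⟩ := C.dn_surj y.2
  exact ⟨⟨x, hx⟩, Subtype.ext h⟩

theorem upR_injective : Function.Injective C.upR := by
  rw [injective_iff_map_eq_zero]
  intro y hy
  exact Subtype.ext (C.up_inj y.2 (congrArg Subtype.val hy))

/-- **`ker π_* = (δ - 1) W`** on the `m`-part. -/
theorem ker_dnR [Finite V] [Finite V0] (x : C.W) (hx : C.dnR x = 0) : ∃ z : C.W, x = C.δW z - z := by
  set T : C.W →+ C.W := (C.δW - 1 : AddMonoid.End C.W) with hT
  have hTa : ∀ z, T z = C.δW z - z := fun _ => rfl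
  have hker : T.ker = C.upR.range := by
    ext z
    rw [AddMonoidHom.mem_ker, hTa, sub_eq_zero]
    constructor
    · intro hz
      obtain ⟨y, hy, h⟩ := C.exists_up_of_fixed z.2 (congrArg Subtype.val hz)
      exact ⟨⟨y, hy⟩, Subtype.ext h⟩
    · rintro ⟨y, rfl⟩
      exact Subtype.ext (C.δ_up y)
  have hle : T.range ≤ C.dnR.ker := by
    rintro _ ⟨z, rfl⟩
    rw [AddMonoidHom.mem_ker, hTa, map_sub]
    refine Subtype.ext ?_
    show C.dn (C.δ z) - C.dn z = 0
    rw [C.dn_δ, sub_self]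
  have h1 : Nat.card T.ker * Nat.card T.range = Nat.card C.W := by
    rw [← AddSubgroup.index_ker, AddSubgroup.card_mul_index]
  have h2 : Nat.card C.dnR.ker * Nat.card C.W0 = Nat.card C.W := by
    have : Nat.card C.dnR.range = Nat.card C.W0 := by
      rw [AddMonoidHom.range_eq_top.mpr C.dnR_surjective]
      exact Nat.card_congr AddSubgroup.topEquiv.toEquiv
    rw [← this, ← AddSubgroup.index_ker, AddSubgroup.card_mul_index]
  have h3 : Nat.card C.upR.range = Nat.card C.W0 :=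
    (Nat.card_congr (AddMonoidHom.ofInjective C.upR_injective).toEquiv).symm
  have h4 : Nat.card C.dnR.ker = Nat.card T.range := by
    rw [hker, h3] at h1
    have hpos : 0 < Nat.card C.W0 := Nat.card_pos
    have : Nat.card C.W0 * Nat.card C.dnR.ker = Nat.card C.W0 * Nat.card T.range := by
      rw [h1, mul_comm, h2]
    exact Nat.eq_of_mul_eq_mul_left hpos this
  have h5 : T.range = C.dnR.ker := AddSubgroup.eq_of_le_of_card_ge hle (le_of_eq h4)
  have h6 : x ∈ T.range := by rw [h5]; exact hx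
  obtain ⟨z, hz⟩ := h6
  exact ⟨z, hz.symm⟩

theorem ker_dn [Finite V] [Finite V0] {x : V} (hx : x ∈ C.W) (h : C.dn x = 0) :
    ∃ z ∈ C.W, x = C.δ z - z := by
  obtain ⟨z, hz⟩ := C.ker_dnR ⟨x, hx⟩ (Subtype.ext h)
  exact ⟨z, z.2, congrArg Subtype.val hz⟩

/-! #### Packaging: the FREE fields of `T2.Data p k a ↥C.W ↥C.W0`, literally -/

omit C in
theorem exists_hinv (hp : p.Prime) (hh : ¬ p ∣ h) (k : ℕ) : ∃ b : ℤ, (p : ℤ) ^ k ∣ 1 - b * h := by
  have h1 : IsCoprime ((p : ℤ) ^ k) (h : ℤ) :=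
    ((Nat.prime_iff_prime_int.mp hp).coprime_iff_not_dvd.2
      (fun hd => hh (Int.natCast_dvd_natCast.mp hd))).pow_left
  obtain ⟨a', b, hab⟩ := h1
  exact ⟨b, a', by rw [← hab]; ring⟩

/-- an inverse of `h` modulo `p ^ k` -/
noncomputable def hinv : ℤ := (exists_hinv C.hp C.hh k).choose

theorem hinv_spec : (p : ℤ) ^ k ∣ 1 - C.hinv * h := (exists_hinv C.hp C.hh k).choose_spec

theorem hinv_smul_gen {X : Type*} [AddCommGroup X] (hX : ∀ x : X, p ^ k • x = 0) (x : X) :
    C.hinv • (h • x) = x := by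
  obtain ⟨a', ha⟩ := C.hinv_spec
  have h2 : ((p : ℤ) ^ k) • x = 0 := by
    rw [← Nat.cast_pow, natCast_zsmul]; exact hX x
  have h3 : (1 - C.hinv * h) • x = 0 := by
    rw [ha, mul_comm, mul_zsmul, h2, zsmul_zero]
  rw [sub_zsmul, one_zsmul, mul_zsmul, natCast_zsmul, ← sub_eq_add_neg] at h3
  exact (sub_eq_zero.mp h3).symm

theorem hinv_smul (x : V) : C.hinv • (h • x) = x := C.hinv_smul_gen C.hV x

theorem hinv_smul0 (y : V0) : C.hinv • (h • y) = y := C.hinv_smul_gen C.hV0 y

/-- `pr = h⁻¹ π_*` on the `m`-parts -/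
noncomputable def prR : C.W →+ C.W0 := C.hinv • C.dnR

theorem coe_prR (x : C.W) : (C.prR x : V0) = C.hinv • C.dn x := rfl

theorem hW (x : C.W) : p ^ k • x = 0 := Subtype.ext (C.hV x)

theorem hW0 (y : C.W0) : p ^ k • y = 0 := Subtype.ext (C.hV0 y)

theorem hδ : C.δW ^ (p ^ a) = 1 := by
  refine DFunLike.ext _ _ fun x => Subtype.ext ?_
  rw [coe_δW_pow]
  exact C.δ_pow_apply x.2

theorem pr_surj [Finite V] [Finite V0] : Function.Surjective C.prR := by
  intro y
  obtain ⟨x, hx⟩ := C.dnR_surjective (h • y)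
  refine ⟨x, Subtype.ext ?_⟩
  rw [coe_prR, ← coe_dnR, hx]
  exact C.hinv_smul0 y

theorem pr_δ (x : C.W) : C.prR (C.δW x) = C.prR x := by
  refine Subtype.ext ?_
  rw [coe_prR, coe_prR, coe_δW, C.dn_δ]

theorem ker_pr [Finite V] [Finite V0] (x : C.W) (hx : C.prR x = 0) : ∃ y, x = C.δW y - y := by
  apply C.ker_dnR
  refine Subtype.ext ?_
  have h1 : C.hinv • C.dn x = 0 := congrArg Subtype.val hx
  have h2 := C.hinv_smul0 (C.dn x)
  rw [smul_comm, h1, smul_zero] at h2
  exact h2.symm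

theorem inc_inj : Function.Injective C.upR := C.upR_injective

theorem δ_inc (y : C.W0) : C.δW (C.upR y) = C.upR y := Subtype.ext (C.δ_up y)

theorem inc_pr (x : C.W) : C.upR (C.prR x) = ∑ j ∈ Finset.range (p ^ a), (C.δW ^ j) x := by
  refine Subtype.ext ?_
  rw [coe_upR, coe_prR, map_zsmul, C.up_dn_apply x.2, C.hinv_smul, AddSubgroup.val_finsetSum]
  exact Finset.sum_congr rfl fun j _ => (C.coe_δW_pow j x).symm

/-- compatibility of `pr` with a pair of operators commuting with the families -/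
theorem pr_res {g : AddMonoid.End V} {g0 : AddMonoid.End V0} (hg : ∀ i, Commute g (C.t i))
    (hg0 : ∀ i, Commute g0 (C.t0 i)) (hdn : ∀ x, C.dn (g x) = g0 (C.dn x)) (x : C.W) :
    C.prR (C.res g hg x) = C.res0 g0 hg0 (C.prR x) := by
  refine Subtype.ext ?_
  rw [coe_prR, coe_res, coe_res0, coe_prR, hdn, map_zsmul]

/-- compatibility of `inc` with a pair of operators commuting with the families -/
theorem res_inc {g : AddMonoid.End V} {g0 : AddMonoid.End V0} (hg : ∀ i, Commute g (C.t i))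
    (hg0 : ∀ i, Commute g0 (C.t0 i)) (hup : ∀ y, C.up (g0 y) = g (C.up y)) (y : C.W0) :
    C.res g hg (C.upR y) = C.upR (C.res0 g0 hg0 y) := by
  refine Subtype.ext ?_
  rw [coe_res, coe_upR, coe_upR, coe_res0, hup]

end Cover

end Fermat.Agent.S43.Free.Fin
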